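import Mathlib
import Fermat.Agent.S21.ParaClass

/-!
# S41, leaf [CUSP-BIJ] (helper4), part 1: positive parabolic elements of `SL(2, ℤ)`

`IsPosPar g` : `g` has trace `2` and `0 < g 0 1 - g 1 0`, i.e. `g` is conjugate in `SL(2, ℤ)` to
`T ^ m` with `m > 0`.  The orientation is invariant under conjugation by rational matrices of
positive determinant.
-/

set_option autoImplicit false

namespace Fermat.Agent.S41.CuspBij4

open Matrix ModularGroup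
open scoped MatrixGroups

/-- positive parabolic: trace `2` and upper-right entry minus lower-left entry positive. -/
def IsPosPar (g : SL(2, ℤ)) : Prop :=
  (g : Matrix (Fin 2) (Fin 2) ℤ).trace = 2 ∧ 0 < g 0 1 - g 1 0

theorem SL_ext_entries {g h : SL(2, ℤ)} (h00 : g 0 0 = h 0 0) (h01 : g 0 1 = h 0 1)
    (h10 : g 1 0 = h 1 0) (h11 : g 1 1 = h 1 1) : g = h := by
  ext i j
  fin_cases i <;> fin_cases j <;> assumption

theorem SL_det_entries (g : SL(2, ℤ)) : g 0 0 * g 1 1 - g 0 1 * g 1 0 = 1 := by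
  have := Matrix.det_fin_two (g : Matrix (Fin 2) (Fin 2) ℤ)
  rw [g.det_coe] at this
  exact this.symm

theorem SL_mul_00 (g h : SL(2, ℤ)) : (g * h) 0 0 = g 0 0 * h 0 0 + g 0 1 * h 1 0 := by
  simp [Matrix.mul_apply, Fin.sum_univ_two]
theorem SL_mul_01 (g h : SL(2, ℤ)) : (g * h) 0 1 = g 0 0 * h 0 1 + g 0 1 * h 1 1 := by
  simp [Matrix.mul_apply, Fin.sum_univ_two]
theorem SL_mul_10 (g h : SL(2, ℤ)) : (g * h) 1 0 = g 1 0 * h 0 0 + g 1 1 * h 1 0 := by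
  simp [Matrix.mul_apply, Fin.sum_univ_two]
theorem SL_mul_11 (g h : SL(2, ℤ)) : (g * h) 1 1 = g 1 0 * h 0 1 + g 1 1 * h 1 1 := by
  simp [Matrix.mul_apply, Fin.sum_univ_two]

theorem SL_inv_00 (g : SL(2, ℤ)) : (g⁻¹) 0 0 = g 1 1 := by
  simp [Matrix.SpecialLinearGroup.coe_inv, Matrix.adjugate_fin_two]
theorem SL_inv_01 (g : SL(2, ℤ)) : (g⁻¹) 0 1 = - g 0 1 := by
  simp [Matrix.SpecialLinearGroup.coe_inv, Matrix.adjugate_fin_two]
theorem SL_inv_10 (g : SL(2, ℤ)) : (g⁻¹) 1 0 = - g 1 0 := by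
  simp [Matrix.SpecialLinearGroup.coe_inv, Matrix.adjugate_fin_two]
theorem SL_inv_11 (g : SL(2, ℤ)) : (g⁻¹) 1 1 = g 0 0 := by
  simp [Matrix.SpecialLinearGroup.coe_inv, Matrix.adjugate_fin_two]

theorem T_zpow_00 (m : ℤ) : (T ^ m) 0 0 = 1 := by
  have := congrFun (congrFun (coe_T_zpow m) 0) 0; simpa using this
theorem T_zpow_01 (m : ℤ) : (T ^ m) 0 1 = m := by
  have := congrFun (congrFun (coe_T_zpow m) 0) 1; simpa using this
theorem T_zpow_10 (m : ℤ) : (T ^ m) 1 0 = 0 := by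
  have := congrFun (congrFun (coe_T_zpow m) 1) 0; simpa using this
theorem T_zpow_11 (m : ℤ) : (T ^ m) 1 1 = 1 := by
  have := congrFun (congrFun (coe_T_zpow m) 1) 1; simpa using this

/-- entries of `δ T^m δ⁻¹`. -/
theorem conj_T_zpow_entries (δ : SL(2, ℤ)) (m : ℤ) :
    (δ * T ^ m * δ⁻¹) 0 0 = 1 - m * (δ 0 0 * δ 1 0) ∧
    (δ * T ^ m * δ⁻¹) 0 1 = m * (δ 0 0 * δ 0 0) ∧
    (δ * T ^ m * δ⁻¹) 1 0 = - (m * (δ 1 0 * δ 1 0)) ∧
    (δ * T ^ m * δ⁻¹) 1 1 = 1 + m * (δ 0 0 * δ 1 0) := by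
  have hd := SL_det_entries δ
  refine ⟨?_, ?_, ?_, ?_⟩
  · rw [SL_mul_00, SL_mul_00, SL_mul_01, SL_inv_00, SL_inv_10, T_zpow_00, T_zpow_01, T_zpow_10,
      T_zpow_11]
    linear_combination hd
  · rw [SL_mul_01, SL_mul_00, SL_mul_01, SL_inv_01, SL_inv_11, T_zpow_00, T_zpow_01, T_zpow_10,
      T_zpow_11]
    ring
  · rw [SL_mul_10, SL_mul_10, SL_mul_11, SL_inv_00, SL_inv_10, T_zpow_00, T_zpow_01, T_zpow_10,
      T_zpow_11]
    ring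
  · rw [SL_mul_11, SL_mul_10, SL_mul_11, SL_inv_01, SL_inv_11, T_zpow_00, T_zpow_01, T_zpow_10,
      T_zpow_11]
    linear_combination hd

theorem col_sq_pos (δ : SL(2, ℤ)) : 0 < δ 0 0 * δ 0 0 + δ 1 0 * δ 1 0 := by
  have hd := SL_det_entries δ
  by_contra h
  have h0 : δ 0 0 * δ 0 0 + δ 1 0 * δ 1 0 = 0 := by nlinarith [mul_self_nonneg (δ 0 0), mul_self_nonneg (δ 1 0)]
  have h1 : δ 0 0 = 0 := by nlinarith [mul_self_nonneg (δ 0 0), mul_self_nonneg (δ 1 0)]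
  have h2 : δ 1 0 = 0 := by nlinarith [mul_self_nonneg (δ 0 0), mul_self_nonneg (δ 1 0)]
  rw [h1, h2] at hd
  simp at hd

theorem trace_conj_T_zpow (δ : SL(2, ℤ)) (m : ℤ) :
    ((δ * T ^ m * δ⁻¹ : SL(2, ℤ)) : Matrix (Fin 2) (Fin 2) ℤ).trace = 2 := by
  obtain ⟨h00, -, -, h11⟩ := conj_T_zpow_entries δ m
  rw [Matrix.trace_fin_two]
  have e00 : ((δ * T ^ m * δ⁻¹ : SL(2, ℤ)) : Matrix (Fin 2) (Fin 2) ℤ) 0 0 = (δ * T ^ m * δ⁻¹) 0 0 := rfl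
  have e11 : ((δ * T ^ m * δ⁻¹ : SL(2, ℤ)) : Matrix (Fin 2) (Fin 2) ℤ) 1 1 = (δ * T ^ m * δ⁻¹) 1 1 := rfl
  rw [e00, e11, h00, h11]; ring

/-- `δ T^m δ⁻¹` is positive parabolic iff `m > 0`. -/
theorem isPosPar_conj_T_zpow (δ : SL(2, ℤ)) (m : ℤ) : IsPosPar (δ * T ^ m * δ⁻¹) ↔ 0 < m := by
  obtain ⟨-, h01, h10, -⟩ := conj_T_zpow_entries δ m
  have hpos := col_sq_pos δ
  constructor
  · rintro ⟨-, h⟩
    rw [h01, h10] at h
    have : 0 < m * (δ 0 0 * δ 0 0 + δ 1 0 * δ 1 0) := by linarith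
    by_contra hm
    have hm' : m ≤ 0 := not_lt.mp hm
    nlinarith
  · intro hm
    refine ⟨trace_conj_T_zpow δ m, ?_⟩
    rw [h01, h10]
    have : 0 < m * (δ 0 0 * δ 0 0 + δ 1 0 * δ 1 0) := mul_pos hm hpos
    linarith

/-- a positive parabolic element is `δ T^m δ⁻¹` with `m > 0`. -/
theorem exists_conj_T_pow_of_isPosPar {g : SL(2, ℤ)} (hg : IsPosPar g) :
    ∃ (δ : SL(2, ℤ)) (m : ℕ), 0 < m ∧ g = δ * T ^ m * δ⁻¹ := by
  obtain ⟨δ, m, hm⟩ := Fermat.Agent.S21.ParaClass.exists_conj_of_trace_eq_two g hg.1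
  have hpos : 0 < m := by
    rw [hm] at hg
    exact (isPosPar_conj_T_zpow δ m).mp hg
  refine ⟨δ, m.toNat, ?_, ?_⟩
  · omega
  · rw [hm]
    congr 2
    rw [← zpow_natCast, Int.toNat_of_nonneg hpos.le]

end Fermat.Agent.S41.CuspBij4
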