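import Mathlib
import Fermat.Agent.S41.CuspBij4.PosPar

/-!
# S41, leaf [CUSP-BIJ] (helper4), part 2: conjugation lemmas

* `isPosPar_of_intertwine` : if `A * g = g' * A` for an integral matrix `A` of positive determinant,
  then `IsPosPar g → IsPosPar g'` (orientation of parabolic elements is `GL₂⁺`-invariant).
* `eq_T_zpow_or_neg_of_10` : an element of `SL(2, ℤ)` with lower-left entry `0` is `± T ^ k`.
* `lower_left_eq_zero_of_intertwine_T` : `M * T ^ a = T ^ b * M`, `a ≠ 0` implies `M 1 0 = 0`.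
-/

set_option autoImplicit false

namespace Fermat.Agent.S41.CuspBij4

open Matrix ModularGroup
open scoped MatrixGroups

theorem pos_of_mul_pos_left_int {x y : ℤ} (h : 0 < x * y) (hx : 0 < x) : 0 < y := by
  by_contra hy
  have : y ≤ 0 := not_lt.mp hy
  nlinarith

theorem sq_add_sq_pos_of_det_ne_zero {α β γ δ : ℤ} (hD : α * δ - β * γ ≠ 0) :
    0 < β * β + δ * δ := by
  by_contra hcon
  have hβ : β = 0 := by nlinarith [mul_self_nonneg β, mul_self_nonneg δ]
  have hδ : δ = 0 := by nlinarith [mul_self_nonneg β, mul_self_nonneg δ]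
  apply hD; rw [hβ, hδ]; ring

/-- the integer inequality behind `isPosPar_of_intertwine`. -/
theorem pos_core (α β γ δ a b c d : ℤ) (hD : 0 < α * δ - β * γ) (htr : a + d = 2)
    (hdet : a * d - b * c = 1) (hpos : 0 < b - c) :
    0 < (α * α + γ * γ) * b - (β * β + δ * δ) * c - (α * β + γ * δ) * (a - d) := by
  obtain ⟨E, hE⟩ : ∃ E : ℤ, E = a - d := ⟨_, rfl⟩
  rw [← hE]
  have hE2 : E * E = -(4 * (b * c)) := by
    rw [hE]; linear_combination (a + d + 2) * htr - 4 * hdet
  obtain ⟨X, hX⟩ : ∃ X : ℤ, X = (α * α + γ * γ) * b - (β * β + δ * δ) * c - (α * β + γ * δ) * E :=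
    ⟨_, rfl⟩
  rw [← hX]
  have hD0 : α * δ - β * γ ≠ 0 := hD.ne'
  rcases lt_or_ge 0 b with hb | hb
  · have h4 : 4 * b * X = (2 * α * b - β * E) ^ 2 + (2 * γ * b - δ * E) ^ 2 := by
      rw [hX]; linear_combination (-(β * β + δ * δ)) * hE2
    by_contra hneg
    have hX0 : X ≤ 0 := not_lt.mp hneg
    have h1 : 4 * b * X ≤ 0 := mul_nonpos_of_nonneg_of_nonpos (by linarith) hX0
    have n1 := sq_nonneg (2 * α * b - β * E)
    have n2 := sq_nonneg (2 * γ * b - δ * E)
    have s1 : (2 * α * b - β * E) ^ 2 = 0 := by linarith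
    have s2 : (2 * γ * b - δ * E) ^ 2 = 0 := by linarith
    have t1 : 2 * α * b - β * E = 0 := by simpa using s1
    have t2 : 2 * γ * b - δ * E = 0 := by simpa using s2
    have h2bD : 2 * b * (α * δ - β * γ) = 0 := by linear_combination δ * t1 - β * t2
    have hb0 : b = 0 := by
      rcases mul_eq_zero.mp h2bD with h2 | h2
      · rcases mul_eq_zero.mp h2 with h3 | h3
        · norm_num at h3
        · exact h3
      · exact absurd h2 hD0
    omega
  · have hc : c < 0 := by linarith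
    have hbc : 0 ≤ b * c := mul_nonneg_of_nonpos_of_nonpos hb hc.le
    have hEE := mul_self_nonneg E
    have hbc0 : b * c = 0 := by linarith
    have hb0 : b = 0 := by
      rcases mul_eq_zero.mp hbc0 with h2 | h2
      · exact h2
      · omega
    have hE0 : E = 0 := by
      have : E * E = 0 := by rw [hE2, hbc0]; ring
      exact mul_self_eq_zero.mp this
    have hβδ := sq_add_sq_pos_of_det_ne_zero hD0
    rw [hX, hb0, hE0]
    have : 0 < (β * β + δ * δ) * (-c) := mul_pos hβδ (by linarith)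
    linarith

/-- orientation of parabolic elements is invariant under conjugation by integral matrices of
positive determinant. -/
theorem isPosPar_of_intertwine (A : Matrix (Fin 2) (Fin 2) ℤ) (hA : 0 < A.det) {g g' : SL(2, ℤ)}
    (h : A * (g : Matrix (Fin 2) (Fin 2) ℤ) = (g' : Matrix (Fin 2) (Fin 2) ℤ) * A)
    (hg : IsPosPar g) : IsPosPar g' := by
  obtain ⟨htr, hpos⟩ := hg
  rw [Matrix.trace_fin_two] at htr
  have hdetg := SL_det_entries g
  rw [Matrix.det_fin_two] at hA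
  have e00 := congrFun (congrFun h 0) 0
  have e01 := congrFun (congrFun h 0) 1
  have e10 := congrFun (congrFun h 1) 0
  have e11 := congrFun (congrFun h 1) 1
  simp only [Matrix.mul_apply, Fin.sum_univ_two] at e00 e01 e10 e11
  have hcore := pos_core (A 0 0) (A 0 1) (A 1 0) (A 1 1) _ _ _ _ hA htr hdetg hpos
  have hD0 : A 0 0 * A 1 1 - A 0 1 * A 1 0 ≠ 0 := hA.ne'
  constructor
  · rw [Matrix.trace_fin_two]
    have : (A 0 0 * A 1 1 - A 0 1 * A 1 0) *
        ((g' : Matrix (Fin 2) (Fin 2) ℤ) 0 0 + (g' : Matrix (Fin 2) (Fin 2) ℤ) 1 1) =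
        (A 0 0 * A 1 1 - A 0 1 * A 1 0) * 2 := by
      linear_combination (-(A 1 1)) * e00 + A 1 0 * e01 + A 0 1 * e10 - A 0 0 * e11 +
        (A 0 0 * A 1 1 - A 0 1 * A 1 0) * htr
    exact mul_left_cancel₀ hD0 this
  · have hDX : (A 0 0 * A 1 1 - A 0 1 * A 1 0) * (g' 0 1 - g' 1 0) =
        (A 0 0 * A 0 0 + A 1 0 * A 1 0) * g 0 1 - (A 0 1 * A 0 1 + A 1 1 * A 1 1) * g 1 0 -
          (A 0 0 * A 0 1 + A 1 0 * A 1 1) * (g 0 0 - g 1 1) := by
      linear_combination A 0 1 * e00 - A 0 0 * e01 + A 1 1 * e10 - A 1 0 * e11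
    have : 0 < (A 0 0 * A 1 1 - A 0 1 * A 1 0) * (g' 0 1 - g' 1 0) := by rw [hDX]; exact hcore
    exact pos_of_mul_pos_left_int this hA

/-- an element of `SL(2, ℤ)` with lower-left entry `0` is `± T ^ k`. -/
theorem eq_T_zpow_or_neg_of_10 (M : SL(2, ℤ)) (h10 : M 1 0 = 0) :
    ∃ k : ℤ, M = T ^ k ∨ M = -(T ^ k) := by
  have hdet := SL_det_entries M
  rw [h10, mul_zero, sub_zero] at hdet
  rcases Int.eq_one_or_neg_one_of_mul_eq_one hdet with h00 | h00
  · exact ⟨M 0 1, Or.inl (Fermat.Agent.S21.ParaClass.eq_T_zpow_of_col M h00 h10)⟩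
  · refine ⟨(-M) 0 1, Or.inr ?_⟩
    have h00' : (-M) 0 0 = 1 := by
      simp [Matrix.SpecialLinearGroup.coe_neg, h00]
    have h10' : (-M) 1 0 = 0 := by
      simp [Matrix.SpecialLinearGroup.coe_neg, h10]
    have := Fermat.Agent.S21.ParaClass.eq_T_zpow_of_col (-M) h00' h10'
    rw [← this, neg_neg]

/-- if `M` intertwines two powers of `T`, the first being nontrivial, then `M` is upper
triangular. -/
theorem lower_left_eq_zero_of_intertwine_T (M : SL(2, ℤ)) {a b : ℤ} (ha : a ≠ 0)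
    (h : M * T ^ a = T ^ b * M) : M 1 0 = 0 := by
  have h11 : (M * T ^ a) 1 1 = (T ^ b * M) 1 1 := by rw [h]
  rw [SL_mul_11, SL_mul_11, T_zpow_01, T_zpow_11, T_zpow_10, T_zpow_11] at h11
  have : M 1 0 * a = 0 := by linarith
  rcases mul_eq_zero.mp this with h1 | h1
  · exact h1
  · exact absurd h1 ha

theorem neg_T_zpow_ne_T_zpow (a b : ℤ) : -(T ^ a) ≠ T ^ b := by
  intro h
  have h00 : (-(T ^ a)) 0 0 = (T ^ b) 0 0 := by rw [h]
  rw [T_zpow_00] at h00
  have : (-(T ^ a)) 0 0 = -1 := by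
    simp [Matrix.SpecialLinearGroup.coe_neg, T_zpow_00]
  rw [this] at h00
  norm_num at h00

theorem T_zpow_injective {a b : ℤ} (h : T ^ a = T ^ b) : a = b := by
  have h01 : (T ^ a) 0 1 = (T ^ b) 0 1 := by rw [h]
  rwa [T_zpow_01, T_zpow_01] at h01

end Fermat.Agent.S41.CuspBij4
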