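import Mathlib
import Fermat.Agent.S41.CuspBij4.Conj
import Fermat.Agent.S41.CuspSum22.Core

/-!
# S41, leaf [CUSP-BIJ] (helper4), part 3: the cusp generators of a `CuspSys` form a transversal

For an action of `SL(2, ℤ)` on `Ω`, a base point `ω₀` fixed by `-1`, `Γ := stabilizer ω₀`, and a
`CuspSum22.CuspSys T ω₀` with positive widths, the elements `C.γ i = h_i T^{w_i} h_i⁻¹` are exactly a
system of representatives of the `Γ`-conjugacy classes of positive primitive parabolic elements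
of `Γ`.
-/

set_option autoImplicit false

namespace Fermat.Agent.S41.CuspBij4

open Matrix ModularGroup Fermat.Agent.S41.CuspSum22
open scoped MatrixGroups

/-- `g` is primitive in `Γ` up to sign: it is not `± δ ^ n` with `δ ∈ Γ` unless `n = 1`. -/
def IsPrimIn (Γ : Subgroup SL(2, ℤ)) (g : SL(2, ℤ)) : Prop :=
  ∀ δ ∈ Γ, ∀ n : ℕ, (δ ^ n = g ∨ δ ^ n = -g) → n = 1

variable {Ω : Type*} [MulAction SL(2, ℤ) Ω] {ω₀ : Ω}

section Basic

variable (C : CuspSys (T : SL(2, ℤ)) ω₀)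

/-- the base point of the `i`-th orbit. -/
def basePt (i : C.I) : Ω := (C.h i)⁻¹ • ω₀

theorem e_apply (i : C.I) (k : Fin (C.w i)) :
    C.e ⟨i, k⟩ = (T ^ (k : ℕ))⁻¹ • basePt C i := C.he i k

theorem T_pow_w_smul (i : C.I) : (T : SL(2, ℤ)) ^ (C.w i) • basePt C i = basePt C i := C.fix i

theorem T_zpow_mul_w_smul (i : C.I) (q : ℤ) :
    (T : SL(2, ℤ)) ^ ((C.w i : ℤ) * q) • basePt C i = basePt C i := by
  have h1 : (T : SL(2, ℤ)) ^ ((C.w i : ℤ)) • basePt C i = basePt C i := by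
    rw [zpow_natCast]; exact T_pow_w_smul C i
  have h2 : ((T : SL(2, ℤ)) ^ ((C.w i : ℤ))) ∈ MulAction.stabilizer SL(2, ℤ) (basePt C i) := h1
  have h3 := Subgroup.zpow_mem _ h2 q
  rw [← _root_.zpow_mul] at h3
  exact h3

/-- `T ^ m` fixes the base point of the `i`-th orbit iff the width divides `m`. -/
theorem T_zpow_smul_basePt_iff (hw : ∀ i, 0 < C.w i) (i : C.I) (m : ℤ) :
    (T : SL(2, ℤ)) ^ m • basePt C i = basePt C i ↔ (C.w i : ℤ) ∣ m := by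
  constructor
  · intro h
    have hwpos : (0 : ℤ) < C.w i := by exact_mod_cast hw i
    set r := m % (C.w i : ℤ) with hr
    have hr0 : 0 ≤ r := Int.emod_nonneg _ hwpos.ne'
    have hrw : r < C.w i := Int.emod_lt_of_pos _ hwpos
    have hm : m = (C.w i : ℤ) * (m / (C.w i : ℤ)) + r := (Int.mul_ediv_add_emod m _).symm
    have hfix : (T : SL(2, ℤ)) ^ r • basePt C i = basePt C i := by
      have h1 : (T : SL(2, ℤ)) ^ r = (T ^ ((C.w i : ℤ) * (m / (C.w i : ℤ))))⁻¹ * T ^ m := by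
        rw [← _root_.zpow_neg, ← _root_.zpow_add]; congr 1; omega
      rw [h1, mul_smul, h, inv_smul_eq_iff, T_zpow_mul_w_smul]
    -- `r` as a natural number `< w i`
    obtain ⟨k, hk⟩ := Int.eq_ofNat_of_zero_le hr0
    have hkw : k < C.w i := by exact_mod_cast hk ▸ hrw
    have hfix' : ((T : SL(2, ℤ)) ^ k)⁻¹ • basePt C i = basePt C i := by
      rw [inv_smul_eq_iff]
      rw [hk, zpow_natCast] at hfix
      exact hfix.symm
    have e1 : C.e ⟨i, ⟨k, hkw⟩⟩ = C.e ⟨i, ⟨0, hw i⟩⟩ := by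
      rw [e_apply, e_apply]
      simp only [pow_zero, inv_one, one_smul]
      exact hfix'
    have e2 := C.e.injective e1
    have hk0 : k = 0 := by
      have := congrArg (fun p : (Σ i : C.I, Fin (C.w i)) => (p.2 : ℕ)) e2
      simpa using this
    rw [hk0] at hk
    have : r = 0 := by simpa using hk
    exact Int.dvd_of_emod_eq_zero (hr ▸ this)
  · rintro ⟨q, rfl⟩
    exact T_zpow_mul_w_smul C i q

/-- every point of `Ω` is `T^{-k} • basePt i` for a unique `(i, k)`. -/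
theorem exists_eq_smul_basePt (x : Ω) : ∃ (i : C.I) (k : ℕ), x = (T ^ k)⁻¹ • basePt C i := by
  refine ⟨(C.e.symm x).1, ((C.e.symm x).2 : ℕ), ?_⟩
  have := e_apply C (C.e.symm x).1 (C.e.symm x).2
  rw [← this]
  simp

/-- two base points in the same `T`-orbit have the same index. -/
theorem index_eq_of_smul_eq (hw : ∀ i, 0 < C.w i) {i j : C.I} (k : ℤ)
    (h : basePt C j = (T : SL(2, ℤ)) ^ k • basePt C i) : i = j := by
  have hwpos : (0 : ℤ) < C.w i := by exact_mod_cast hw i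
  -- reduce `-k` modulo `w i`
  set r := (-k) % (C.w i : ℤ) with hr
  have hr0 : 0 ≤ r := Int.emod_nonneg _ hwpos.ne'
  have hrw : r < C.w i := Int.emod_lt_of_pos _ hwpos
  have hm : -k = (C.w i : ℤ) * ((-k) / (C.w i : ℤ)) + r := (Int.mul_ediv_add_emod (-k) _).symm
  obtain ⟨n, hn⟩ := Int.eq_ofNat_of_zero_le hr0
  have hnw : n < C.w i := by exact_mod_cast hn ▸ hrw
  have h1 : (T : SL(2, ℤ)) ^ k = (T ^ n)⁻¹ * (T ^ ((C.w i : ℤ) * ((-k) / (C.w i : ℤ))))⁻¹ := by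
    rw [← zpow_natCast, ← _root_.zpow_neg, ← _root_.zpow_neg, ← _root_.zpow_add]; congr 1; omega
  have h2 : basePt C j = (T ^ n)⁻¹ • basePt C i := by
    rw [h, h1, mul_smul]
    congr 1
    rw [inv_smul_eq_iff, T_zpow_mul_w_smul]
  have e1 : C.e ⟨j, ⟨0, hw j⟩⟩ = C.e ⟨i, ⟨n, hnw⟩⟩ := by
    rw [e_apply, e_apply]
    simp only [pow_zero, inv_one, one_smul]
    exact h2
  have e2 := C.e.injective e1
  exact (congrArg Sigma.fst e2).symm

end Basic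

section Main

variable (C : CuspSys (T : SL(2, ℤ)) ω₀)

/-- membership of conjugates in the stabiliser. -/
theorem conj_mem_stabilizer_iff (h g : SL(2, ℤ)) :
    h * g * h⁻¹ ∈ MulAction.stabilizer SL(2, ℤ) ω₀ ↔ g • (h⁻¹ • ω₀) = h⁻¹ • ω₀ := by
  rw [MulAction.mem_stabilizer_iff, mul_smul, mul_smul, smul_eq_iff_eq_inv_smul]

theorem neg_one_smul_of_base (hneg : (-1 : SL(2, ℤ)) • ω₀ = ω₀) (h : SL(2, ℤ)) :
    (-1 : SL(2, ℤ)) • (h • ω₀) = h • ω₀ := by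
  rw [← mul_smul, neg_one_mul, ← mul_neg_one, mul_smul, hneg]

theorem coe_γ_eq (i : C.I) :
    ((C.γ i : MulAction.stabilizer SL(2, ℤ) ω₀) : SL(2, ℤ)) =
      C.h i * T ^ ((C.w i : ℤ)) * (C.h i)⁻¹ := by
  rw [CuspSys.coe_γ, zpow_natCast]

/-- the cusp generators are positive parabolic. -/
theorem isPosPar_γ (hw : ∀ i, 0 < C.w i) (i : C.I) :
    IsPosPar ((C.γ i : MulAction.stabilizer SL(2, ℤ) ω₀) : SL(2, ℤ)) := by
  rw [coe_γ_eq]
  exact (isPosPar_conj_T_zpow _ _).mpr (by exact_mod_cast hw i)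

theorem conj_pow_eq (h δ : SL(2, ℤ)) (n : ℕ) : (h⁻¹ * δ * h) ^ n = h⁻¹ * δ ^ n * h := by
  induction n with
  | zero => simp
  | succ n ih => rw [pow_succ, ih, pow_succ]; group

theorem neg_T_zpow_pow (k : ℤ) (n : ℕ) :
    (-(T ^ k) : SL(2, ℤ)) ^ n = T ^ (k * n) ∨ (-(T ^ k) : SL(2, ℤ)) ^ n = -(T ^ (k * n)) := by
  have h1 : (T ^ k : SL(2, ℤ)) ^ n = T ^ (k * n) := by
    rw [← zpow_natCast, ← _root_.zpow_mul]
  rcases Nat.even_or_odd n with he | ho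
  · left; rw [Even.neg_pow he, h1]
  · right; rw [Odd.neg_pow ho, h1]

/-- the cusp generators are primitive in `Γ` (up to sign). -/
theorem isPrimIn_γ (hneg : (-1 : SL(2, ℤ)) • ω₀ = ω₀) (hw : ∀ i, 0 < C.w i) (i : C.I) :
    IsPrimIn (MulAction.stabilizer SL(2, ℤ) ω₀)
      ((C.γ i : MulAction.stabilizer SL(2, ℤ) ω₀) : SL(2, ℤ)) := by
  intro δ hδ n hn
  obtain ⟨h, hh⟩ : ∃ h, h = C.h i := ⟨_, rfl⟩
  obtain ⟨w, hwdef⟩ : ∃ w : ℤ, w = (C.w i : ℤ) := ⟨_, rfl⟩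
  have hw0 : w ≠ 0 := by rw [hwdef]; exact_mod_cast (hw i).ne'
  have hγ : ((C.γ i : MulAction.stabilizer SL(2, ℤ) ω₀) : SL(2, ℤ)) = h * T ^ w * h⁻¹ := by
    rw [hh, hwdef]; exact coe_γ_eq C i
  rw [hγ] at hn
  -- `δ` commutes with `γ`
  have hcomm : δ * (h * T ^ w * h⁻¹) = (h * T ^ w * h⁻¹) * δ := by
    rcases hn with hn | hn
    · rw [← hn, ← pow_succ', ← pow_succ]
    · have h2 : h * T ^ w * h⁻¹ = -(δ ^ n) := by rw [hn, neg_neg]
      rw [h2, mul_neg, neg_mul, ← pow_succ', ← pow_succ]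
  obtain ⟨M, hM⟩ : ∃ M, M = h⁻¹ * δ * h := ⟨_, rfl⟩
  have hMT : M * T ^ w = T ^ w * M := by
    calc M * T ^ w = h⁻¹ * (δ * (h * T ^ w * h⁻¹)) * h := by rw [hM]; group
      _ = h⁻¹ * ((h * T ^ w * h⁻¹) * δ) * h := by rw [hcomm]
      _ = T ^ w * M := by rw [hM]; group
  have h10 := lower_left_eq_zero_of_intertwine_T M hw0 hMT
  obtain ⟨k, hk⟩ := eq_T_zpow_or_neg_of_10 M h10
  have hδM : δ = h * M * h⁻¹ := by rw [hM]; group
  -- `T ^ k` fixes the base point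
  have hfixM : M • basePt C i = basePt C i := by
    have h1 : h * M * h⁻¹ ∈ MulAction.stabilizer SL(2, ℤ) ω₀ := hδM ▸ hδ
    have h2 := (conj_mem_stabilizer_iff (ω₀ := ω₀) h M).mp h1
    rw [hh] at h2
    exact h2
  have hfix : (T : SL(2, ℤ)) ^ k • basePt C i = basePt C i := by
    rcases hk with hk | hk
    · rw [← hk]; exact hfixM
    · have h3 : (T : SL(2, ℤ)) ^ k = (-1 : SL(2, ℤ)) * M := by rw [hk]; simp
      rw [h3, mul_smul, hfixM]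
      exact neg_one_smul_of_base hneg _
  obtain ⟨q, hq⟩ := (T_zpow_smul_basePt_iff C hw i k).mp hfix
  rw [← hwdef] at hq
  -- `M ^ n = ± T ^ w`
  have hMn : M ^ n = T ^ w ∨ M ^ n = -(T ^ w) := by
    have h4 : M ^ n = h⁻¹ * δ ^ n * h := by rw [hM]; exact conj_pow_eq h δ n
    rcases hn with hn | hn
    · left; rw [h4, hn]; group
    · right; rw [h4, hn, mul_neg, neg_mul]; congr 1; group
  have hMn' : M ^ n = T ^ (k * n) ∨ M ^ n = -(T ^ (k * n)) := by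
    rcases hk with hk | hk
    · left; rw [hk, ← zpow_natCast, ← _root_.zpow_mul]
    · rw [hk]; exact neg_T_zpow_pow k n
  have hkn : k * n = w := by
    rcases hMn with h1 | h1 <;> rcases hMn' with h2 | h2
    · exact T_zpow_injective (h2.symm.trans h1)
    · exact absurd (h2.symm.trans h1) (neg_T_zpow_ne_T_zpow _ _)
    · exact absurd (h1.symm.trans h2) (neg_T_zpow_ne_T_zpow _ _)
    · exact T_zpow_injective (neg_injective (h2.symm.trans h1))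
  have h5 : w * (q * n) = w * 1 := by rw [← mul_assoc, ← hq, hkn, mul_one]
  have hqn : q * n = 1 := mul_left_cancel₀ hw0 h5
  have h6 : (n : ℤ) * q = 1 := by rw [mul_comm]; exact hqn
  rcases Int.eq_one_or_neg_one_of_mul_eq_one h6 with h7 | h7
  · exact_mod_cast h7
  · omega

/-- **existence**: a positive primitive parabolic element of `Γ` is `Γ`-conjugate to a cusp
generator. -/
theorem exists_conj_γ (hw : ∀ i, 0 < C.w i) {g : SL(2, ℤ)}
    (hgΓ : g ∈ MulAction.stabilizer SL(2, ℤ) ω₀) (hg : IsPosPar g)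
    (hprim : IsPrimIn (MulAction.stabilizer SL(2, ℤ) ω₀) g) :
    ∃ (i : C.I) (ε : MulAction.stabilizer SL(2, ℤ) ω₀),
      g = (ε : SL(2, ℤ)) * (C.γ i : MulAction.stabilizer SL(2, ℤ) ω₀) * (ε : SL(2, ℤ))⁻¹ := by
  obtain ⟨δ, m, hm, rfl⟩ := exists_conj_T_pow_of_isPosPar hg
  obtain ⟨i, j, hij⟩ := exists_eq_smul_basePt C (δ⁻¹ • ω₀)
  -- ε := δ T^{-j} h_i⁻¹ ∈ Γ
  have hεmem : δ * (T ^ j)⁻¹ * (C.h i)⁻¹ ∈ MulAction.stabilizer SL(2, ℤ) ω₀ := by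
    rw [MulAction.mem_stabilizer_iff, mul_smul, mul_smul]
    rw [show (T ^ j)⁻¹ • (C.h i)⁻¹ • ω₀ = δ⁻¹ • ω₀ from hij.symm, smul_inv_smul]
  set ε : MulAction.stabilizer SL(2, ℤ) ω₀ := ⟨_, hεmem⟩ with hε
  have hεcoe : (ε : SL(2, ℤ)) = δ * (T ^ j)⁻¹ * (C.h i)⁻¹ := rfl
  -- g = ε (h T^m h⁻¹) ε⁻¹
  have hg1 : δ * T ^ m * δ⁻¹ =
      (ε : SL(2, ℤ)) * (C.h i * T ^ m * (C.h i)⁻¹) * (ε : SL(2, ℤ))⁻¹ := by
    rw [hεcoe]
    have : δ * (T ^ j)⁻¹ * (C.h i)⁻¹ * (C.h i * T ^ m * (C.h i)⁻¹) * (δ * (T ^ j)⁻¹ * (C.h i)⁻¹)⁻¹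
        = δ * ((T ^ j)⁻¹ * T ^ m * T ^ j) * δ⁻¹ := by group
    rw [this]
    congr 2
    have hc : (T : SL(2, ℤ)) ^ m * T ^ j = T ^ j * T ^ m := by
      rw [← pow_add, ← pow_add, add_comm]
    rw [mul_assoc, hc, inv_mul_cancel_left]
  -- `h T^m h⁻¹ ∈ Γ`, hence `w ∣ m`
  have hmem : C.h i * T ^ m * (C.h i)⁻¹ ∈ MulAction.stabilizer SL(2, ℤ) ω₀ := by
    have : C.h i * T ^ m * (C.h i)⁻¹ = (ε : SL(2, ℤ))⁻¹ * (δ * T ^ m * δ⁻¹) * (ε : SL(2, ℤ)) := by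
      rw [hg1]; group
    rw [this]
    exact Subgroup.mul_mem _ (Subgroup.mul_mem _ (Subgroup.inv_mem _ ε.2) hgΓ) ε.2
  have hfix := (conj_mem_stabilizer_iff (ω₀ := ω₀) (C.h i) (T ^ m)).mp hmem
  have hfix' : (T : SL(2, ℤ)) ^ (m : ℤ) • basePt C i = basePt C i := by
    rw [zpow_natCast]; exact hfix
  obtain ⟨q, hq⟩ := (T_zpow_smul_basePt_iff C hw i m).mp hfix'
  -- `q ≥ 1`
  have hwpos : (0 : ℤ) < C.w i := by exact_mod_cast hw i
  have hqpos : 0 < q := by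
    have : (0 : ℤ) < (C.w i : ℤ) * q := by rw [← hq]; exact_mod_cast hm
    exact pos_of_mul_pos_left_int this hwpos
  obtain ⟨n, hn⟩ := Int.eq_ofNat_of_zero_le hqpos.le
  have hmn : m = C.w i * n := by
    have : (m : ℤ) = ((C.w i * n : ℕ) : ℤ) := by rw [hq, hn]; push_cast; ring
    exact_mod_cast this
  -- `g = (ε γ ε⁻¹) ^ n`
  have hpow : ((ε * C.γ i * ε⁻¹ : MulAction.stabilizer SL(2, ℤ) ω₀) : SL(2, ℤ)) ^ n =
      δ * T ^ m * δ⁻¹ := by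
    rw [hg1, hmn, pow_mul]
    push_cast
    rw [CuspSys.coe_γ]
    have h1 : ∀ (a b : SL(2, ℤ)) (n : ℕ), (a * b * a⁻¹) ^ n = a * b ^ n * a⁻¹ := by
      intro a b n
      induction n with
      | zero => simp
      | succ n ih => rw [pow_succ, ih, pow_succ]; group
    rw [h1, h1]
  have hn1 : n = 1 := hprim _ (ε * C.γ i * ε⁻¹).2 n (Or.inl hpow)
  refine ⟨i, ε, ?_⟩
  rw [hn1, pow_one] at hpow
  rw [← hpow]
  push_cast
  rfl

/-- **uniqueness**: distinct cusp generators are not `Γ`-conjugate. -/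
theorem index_eq_of_conj_γ (hneg : (-1 : SL(2, ℤ)) • ω₀ = ω₀) (hw : ∀ i, 0 < C.w i) {i j : C.I}
    (ε : MulAction.stabilizer SL(2, ℤ) ω₀)
    (h : ((C.γ i : MulAction.stabilizer SL(2, ℤ) ω₀) : SL(2, ℤ)) =
      (ε : SL(2, ℤ)) * (C.γ j : MulAction.stabilizer SL(2, ℤ) ω₀) * (ε : SL(2, ℤ))⁻¹) : i = j := by
  rw [coe_γ_eq, coe_γ_eq] at h
  obtain ⟨M, hM⟩ : ∃ M, M = (C.h i)⁻¹ * (ε : SL(2, ℤ)) * C.h j := ⟨_, rfl⟩
  have hwj : ((C.w j : ℤ)) ≠ 0 := by exact_mod_cast (hw j).ne'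
  have hMT : M * T ^ ((C.w j : ℤ)) = T ^ ((C.w i : ℤ)) * M := by
    calc M * T ^ ((C.w j : ℤ))
        = (C.h i)⁻¹ * ((ε : SL(2, ℤ)) * (C.h j * T ^ ((C.w j : ℤ)) * (C.h j)⁻¹) * (ε : SL(2, ℤ))⁻¹)
            * (ε : SL(2, ℤ)) * C.h j := by rw [hM]; group
      _ = (C.h i)⁻¹ * (C.h i * T ^ ((C.w i : ℤ)) * (C.h i)⁻¹) * (ε : SL(2, ℤ)) * C.h j := by
            rw [h]
      _ = T ^ ((C.w i : ℤ)) * M := by rw [hM]; group
  have h10 := lower_left_eq_zero_of_intertwine_T M hwj hMT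
  obtain ⟨k, hk⟩ := eq_T_zpow_or_neg_of_10 M h10
  -- `basePt j = T^{-k} • basePt i`
  apply index_eq_of_smul_eq C hw (-k)
  have hε : (ε : SL(2, ℤ))⁻¹ • ω₀ = ω₀ := by
    rw [inv_smul_eq_iff]; exact (MulAction.mem_stabilizer_iff.mp ε.2).symm
  have h1 : (C.h j)⁻¹ = M⁻¹ * (C.h i)⁻¹ * (ε : SL(2, ℤ)) := by rw [hM]; group
  have h2 : basePt C j = M⁻¹ • basePt C i := by
    unfold basePt
    rw [h1, mul_smul, mul_smul, MulAction.mem_stabilizer_iff.mp ε.2]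
  rw [h2]
  rcases hk with hk | hk
  · rw [hk, _root_.zpow_neg]
  · have h3 : M⁻¹ = (-1 : SL(2, ℤ)) * (T ^ k)⁻¹ := by
      rw [hk]
      rw [neg_one_mul]
      apply inv_eq_of_mul_eq_one_right
      rw [neg_mul_neg, mul_inv_cancel]
    rw [h3, mul_smul, _root_.zpow_neg]
    unfold basePt
    rw [← mul_smul ((T ^ k)⁻¹), neg_one_smul_of_base hneg]

end Main

end Fermat.Agent.S41.CuspBij4
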