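import Mathlib
import Fermat.Agent.S41.CuspBij4.Transversal

/-!
# S41, leaf [CUSP-BIJ] (helper4), part 4: the cusp bijection under conjugation by `GL₂⁺`

`exists_sigma` : for two `CuspSys` (actions of `SL(2, ℤ)` on `Ω₁`, `Ω₂`, base points fixed by `-1`,
positive widths) and an isomorphism `θ : Γ₁ ≃* Γ₂` of the stabilisers which is conjugation by an
integral matrix `A` of positive determinant (`A * γ = θ γ * A`), there is a bijection `σ` of the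
cusp index sets with `θ (C₁.γ i)` conjugate in `Γ₂` to `C₂.γ (σ i)`.  This is exactly the
hypothesis `hθ` (with `σ`) of `CuspSum22.form_comp_iso`.
-/

set_option autoImplicit false

namespace Fermat.Agent.S41.CuspBij4

open Matrix ModularGroup Fermat.Agent.S41.CuspSum22
open scoped MatrixGroups

/-- abstract transport of transversals of conjugacy classes along a group isomorphism. -/
theorem exists_equiv_of_transversal {Γ₁ Γ₂ : Type*} [Group Γ₁] [Group Γ₂] {I₁ I₂ : Type*}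
    (γ₁ : I₁ → Γ₁) (γ₂ : I₂ → Γ₂) (P₁ : Γ₁ → Prop) (P₂ : Γ₂ → Prop)
    (h₁ : ∀ i, P₁ (γ₁ i)) (h₂ : ∀ j, P₂ (γ₂ j))
    (ex₁ : ∀ g, P₁ g → ∃ i ε, g = ε * γ₁ i * ε⁻¹)
    (ex₂ : ∀ g, P₂ g → ∃ j ε, g = ε * γ₂ j * ε⁻¹)
    (un₁ : ∀ i i' ε, γ₁ i = ε * γ₁ i' * ε⁻¹ → i = i')
    (un₂ : ∀ j j' ε, γ₂ j = ε * γ₂ j' * ε⁻¹ → j = j')
    (θ : Γ₁ ≃* Γ₂) (hθ : ∀ g, P₁ g → P₂ (θ g)) (hθ' : ∀ g, P₂ g → P₁ (θ.symm g)) :
    ∃ σ : I₁ ≃ I₂, ∀ i, ∃ δ : Γ₂, θ (γ₁ i) = δ * γ₂ (σ i) * δ⁻¹ := by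
  classical
  choose f hf using fun i => ex₂ (θ (γ₁ i)) (hθ _ (h₁ i))
  have hinj : Function.Injective f := by
    intro i i' hii
    obtain ⟨ε, hε⟩ := hf i
    obtain ⟨ε', hε'⟩ := hf i'
    rw [hii] at hε
    -- θ γ₁ i = ε ε'⁻¹ (θ γ₁ i') ε' ε⁻¹
    have h3 : θ (γ₁ i) = (ε * ε'⁻¹) * θ (γ₁ i') * (ε * ε'⁻¹)⁻¹ := by
      rw [hε, hε']; group
    have h4 : γ₁ i = θ.symm (ε * ε'⁻¹) * γ₁ i' * (θ.symm (ε * ε'⁻¹))⁻¹ := by
      apply θ.injective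
      rw [h3]
      simp
    exact un₁ _ _ _ h4
  have hsurj : Function.Surjective f := by
    intro j
    obtain ⟨i, ε, hε⟩ := ex₁ (θ.symm (γ₂ j)) (hθ' _ (h₂ j))
    refine ⟨i, ?_⟩
    obtain ⟨ε', hε'⟩ := hf i
    -- θ (γ₁ i) = (θ ε)⁻¹ γ₂ j (θ ε)
    have h3 : γ₂ j = θ ε * θ (γ₁ i) * (θ ε)⁻¹ := by
      have := congrArg θ hε
      simpa using this
    rw [hε'] at h3
    have h4 : γ₂ j = (θ ε * ε') * γ₂ (f i) * (θ ε * ε')⁻¹ := by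
      rw [h3]; group
    exact (un₂ _ _ _ h4).symm
  exact ⟨Equiv.ofBijective f ⟨hinj, hsurj⟩, fun i => by
    obtain ⟨ε, hε⟩ := hf i
    exact ⟨ε, hε⟩⟩

theorem matrix_mul_left_cancel_of_det_ne_zero {A : Matrix (Fin 2) (Fin 2) ℤ} (hA : A.det ≠ 0)
    {X Y : Matrix (Fin 2) (Fin 2) ℤ} (h : A * X = A * Y) : X = Y := by
  have h1 : A.adjugate * (A * X) = A.adjugate * (A * Y) := by rw [h]
  rw [← Matrix.mul_assoc, ← Matrix.mul_assoc, Matrix.adjugate_mul, Matrix.smul_mul,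
    Matrix.smul_mul, Matrix.one_mul, Matrix.one_mul] at h1
  exact smul_right_injective _ hA h1

theorem matrix_mul_right_cancel_of_det_ne_zero {A : Matrix (Fin 2) (Fin 2) ℤ} (hA : A.det ≠ 0)
    {X Y : Matrix (Fin 2) (Fin 2) ℤ} (h : X * A = Y * A) : X = Y := by
  have h1 : (X * A) * A.adjugate = (Y * A) * A.adjugate := by rw [h]
  rw [Matrix.mul_assoc, Matrix.mul_assoc, Matrix.mul_adjugate, Matrix.mul_smul,
    Matrix.mul_smul, Matrix.mul_one, Matrix.mul_one] at h1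
  exact smul_right_injective _ hA h1

/-- the intertwining relation for the adjugate. -/
theorem adjugate_intertwine {A : Matrix (Fin 2) (Fin 2) ℤ} (hA : A.det ≠ 0)
    {X Y : Matrix (Fin 2) (Fin 2) ℤ} (h : A * X = Y * A) : A.adjugate * Y = X * A.adjugate := by
  apply matrix_mul_left_cancel_of_det_ne_zero hA
  apply matrix_mul_right_cancel_of_det_ne_zero hA
  have e1 : A * (A.adjugate * Y) * A = A.det • (Y * A) := by
    rw [← Matrix.mul_assoc, Matrix.mul_adjugate, Matrix.smul_mul, Matrix.one_mul, Matrix.smul_mul]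
  have e2 : A * (X * A.adjugate) * A = A.det • (Y * A) := by
    rw [← Matrix.mul_assoc, Matrix.mul_assoc, Matrix.adjugate_mul, Matrix.mul_smul, Matrix.mul_one,
      h]
  rw [e1, e2]

theorem det_adjugate_fin_two (A : Matrix (Fin 2) (Fin 2) ℤ) : A.adjugate.det = A.det := by
  rw [Matrix.det_adjugate]; simp

section Sigma

variable {Ω₁ Ω₂ : Type*} [MulAction SL(2, ℤ) Ω₁] [MulAction SL(2, ℤ) Ω₂] {ω₁ : Ω₁} {ω₂ : Ω₂}

/-- primitivity is transported by an isomorphism of the stabilisers which is conjugation by an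
integral matrix of nonzero determinant. -/
theorem isPrimIn_of_intertwine (A : Matrix (Fin 2) (Fin 2) ℤ) (hA : A.det ≠ 0)
    (θ : MulAction.stabilizer SL(2, ℤ) ω₁ ≃* MulAction.stabilizer SL(2, ℤ) ω₂)
    (hθ : ∀ γ : MulAction.stabilizer SL(2, ℤ) ω₁,
      A * ((γ : SL(2, ℤ)) : Matrix (Fin 2) (Fin 2) ℤ) =
        (((θ γ : MulAction.stabilizer SL(2, ℤ) ω₂) : SL(2, ℤ)) : Matrix (Fin 2) (Fin 2) ℤ) * A)
    (g : MulAction.stabilizer SL(2, ℤ) ω₁)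
    (hg : IsPrimIn (MulAction.stabilizer SL(2, ℤ) ω₁) (g : SL(2, ℤ))) :
    IsPrimIn (MulAction.stabilizer SL(2, ℤ) ω₂)
      ((θ g : MulAction.stabilizer SL(2, ℤ) ω₂) : SL(2, ℤ)) := by
  intro δ hδ n hn
  set δ₂ : MulAction.stabilizer SL(2, ℤ) ω₂ := ⟨δ, hδ⟩ with hδ₂
  set δ₁ := θ.symm δ₂ with hδ₁
  have hθδ : θ δ₁ = δ₂ := by rw [hδ₁]; simp
  apply hg (δ₁ : SL(2, ℤ)) δ₁.2 n
  -- A δ₁^n = δ^n A
  have h1 := hθ (δ₁ ^ n)
  rw [map_pow, hθδ] at h1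
  have h2 := hθ g
  rcases hn with hn | hn
  · left
    apply Subtype.ext
    apply matrix_mul_left_cancel_of_det_ne_zero hA
    have e1 : (((δ₁ ^ n : MulAction.stabilizer SL(2, ℤ) ω₁) : SL(2, ℤ)) : Matrix (Fin 2) (Fin 2) ℤ)
        = (((δ₁ : SL(2, ℤ)) ^ n : SL(2, ℤ)) : Matrix (Fin 2) (Fin 2) ℤ) := by
      push_cast; rfl
    rw [← e1, h1, h2]
    congr 1
    have : ((δ₂ ^ n : MulAction.stabilizer SL(2, ℤ) ω₂) : SL(2, ℤ)) = δ ^ n := by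
      push_cast; rfl
    rw [this, hn]
  · right
    apply Subtype.ext
    apply matrix_mul_left_cancel_of_det_ne_zero hA
    have e1 : (((δ₁ ^ n : MulAction.stabilizer SL(2, ℤ) ω₁) : SL(2, ℤ)) : Matrix (Fin 2) (Fin 2) ℤ)
        = (((δ₁ : SL(2, ℤ)) ^ n : SL(2, ℤ)) : Matrix (Fin 2) (Fin 2) ℤ) := by
      push_cast; rfl
    rw [← e1, h1, Matrix.SpecialLinearGroup.coe_neg, Matrix.mul_neg, h2, ← Matrix.neg_mul]
    congr 1
    have : ((δ₂ ^ n : MulAction.stabilizer SL(2, ℤ) ω₂) : SL(2, ℤ)) = δ ^ n := by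
      push_cast; rfl
    rw [this, hn, Matrix.SpecialLinearGroup.coe_neg]

/-- **[CUSP-BIJ]**: the bijection of cusps and the conjugacy of cusp generators under an
isomorphism of the stabilisers induced by an integral matrix of positive determinant. -/
theorem exists_sigma (C₁ : CuspSys (T : SL(2, ℤ)) ω₁) (C₂ : CuspSys (T : SL(2, ℤ)) ω₂)
    (hneg₁ : (-1 : SL(2, ℤ)) • ω₁ = ω₁) (hneg₂ : (-1 : SL(2, ℤ)) • ω₂ = ω₂)
    (hw₁ : ∀ i, 0 < C₁.w i) (hw₂ : ∀ i, 0 < C₂.w i)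
    (A : Matrix (Fin 2) (Fin 2) ℤ) (hA : 0 < A.det)
    (θ : MulAction.stabilizer SL(2, ℤ) ω₁ ≃* MulAction.stabilizer SL(2, ℤ) ω₂)
    (hθ : ∀ γ : MulAction.stabilizer SL(2, ℤ) ω₁,
      A * ((γ : SL(2, ℤ)) : Matrix (Fin 2) (Fin 2) ℤ) =
        (((θ γ : MulAction.stabilizer SL(2, ℤ) ω₂) : SL(2, ℤ)) : Matrix (Fin 2) (Fin 2) ℤ) * A) :
    ∃ σ : C₁.I ≃ C₂.I, ∀ i, ∃ δ : MulAction.stabilizer SL(2, ℤ) ω₂,
      θ (C₁.γ i) = δ * C₂.γ (σ i) * δ⁻¹ := by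
  have hA0 : A.det ≠ 0 := hA.ne'
  have hAadj : 0 < A.adjugate.det := by rw [det_adjugate_fin_two]; exact hA
  -- the relation for `θ.symm`
  have hθ' : ∀ γ : MulAction.stabilizer SL(2, ℤ) ω₂,
      A.adjugate * ((γ : SL(2, ℤ)) : Matrix (Fin 2) (Fin 2) ℤ) =
        (((θ.symm γ : MulAction.stabilizer SL(2, ℤ) ω₁) : SL(2, ℤ)) : Matrix (Fin 2) (Fin 2) ℤ) *
          A.adjugate := by
    intro γ
    have := hθ (θ.symm γ)
    rw [MulEquiv.apply_symm_apply] at this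
    exact adjugate_intertwine hA0 this
  refine exists_equiv_of_transversal C₁.γ C₂.γ
    (fun g => IsPosPar (g : SL(2, ℤ)) ∧ IsPrimIn (MulAction.stabilizer SL(2, ℤ) ω₁) (g : SL(2, ℤ)))
    (fun g => IsPosPar (g : SL(2, ℤ)) ∧ IsPrimIn (MulAction.stabilizer SL(2, ℤ) ω₂) (g : SL(2, ℤ)))
    (fun i => ⟨isPosPar_γ C₁ hw₁ i, isPrimIn_γ C₁ hneg₁ hw₁ i⟩)
    (fun j => ⟨isPosPar_γ C₂ hw₂ j, isPrimIn_γ C₂ hneg₂ hw₂ j⟩)
    ?_ ?_ ?_ ?_ θ ?_ ?_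
  · rintro g ⟨hg1, hg2⟩
    obtain ⟨i, ε, h⟩ := exists_conj_γ C₁ hw₁ g.2 hg1 hg2
    exact ⟨i, ε, Subtype.ext (by push_cast; exact h)⟩
  · rintro g ⟨hg1, hg2⟩
    obtain ⟨i, ε, h⟩ := exists_conj_γ C₂ hw₂ g.2 hg1 hg2
    exact ⟨i, ε, Subtype.ext (by push_cast; exact h)⟩
  · intro i i' ε h
    refine index_eq_of_conj_γ C₁ hneg₁ hw₁ ε ?_
    have := congrArg (Subtype.val) h
    simpa using this
  · intro i i' ε h
    refine index_eq_of_conj_γ C₂ hneg₂ hw₂ ε ?_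
    have := congrArg (Subtype.val) h
    simpa using this
  · rintro g ⟨hg1, hg2⟩
    exact ⟨isPosPar_of_intertwine A hA (hθ g) hg1, isPrimIn_of_intertwine A hA0 θ hθ g hg2⟩
  · rintro g ⟨hg1, hg2⟩
    refine ⟨isPosPar_of_intertwine A.adjugate hAadj (hθ' g) hg1, ?_⟩
    exact isPrimIn_of_intertwine A.adjugate hAadj.ne' θ.symm hθ' g hg2

end Sigma

end Fermat.Agent.S41.CuspBij4
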